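/-
S18 / Program J / C1 node `key_gen` (helper69), part 1: the maximal ideal `n_P` of
`red(S_b) = H5.Sbar A O x b` attached to a place `P` of the residue disc of `b`.

`nP A O x b P hP` is the set of reductions of the functions of `S_b` vanishing at `P`.  From the
two inputs `EV` (values of `S_b` at the points of the disc are integral) and `MO`
(`m_O ∩ S_b = m_A S_b`) of the C1 sub-skeleton:

* `nP_isMaximal` : `n_P` is a maximal ideal;
* `nP_deg`       : it has residue degree one over `red(R_b) = H5.Rbar A O x b`;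
* `exists_lift`  : every nonzero element of `n_P` lifts to `τ ∈ S_b` with `τ⁻¹ ∈ O`, `0 < ord_P τ`.
-/
import Fermat.Agent.S18.H5.Defs
import Fermat.Agent.S24.Residue

set_option autoImplicit false

open AlgebraicCurve IntermediateField IsLocalRing

noncomputable section

namespace Fermat.Agent.S18.H69

open Fermat.Agent.S18.H74 Fermat.Agent.S18.H80 Fermat.Agent.S18.H5

variable {K : Type*} [Field K] {A : ValuationSubring K} {F : Type*} [Field F] [Algebra K F]
  {O : ValuationSubring F} {x : F} {b : K}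

/-- The nonunits of a valuation ring absorb multiplication. -/
theorem mul_mem_nonunits_of_mem {L : Type*} [Field L] (V : ValuationSubring L) {a t : L}
    (ha : a ∈ V.nonunits) (ht : t ∈ V) : a * t ∈ V.nonunits := by
  rw [ValuationSubring.mem_nonunits_iff] at ha ⊢
  rw [map_mul]
  have h1 : V.valuation t ≤ 1 := (V.valuation_le_one_iff t).2 ht
  calc V.valuation a * V.valuation t ≤ V.valuation a * 1 := by gcongr
    _ < 1 := by rwa [mul_one]

theorem one_notMem_nonunits {L : Type*} [Field L] (V : ValuationSubring L) :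
    (1 : L) ∉ V.nonunits := by
  rw [ValuationSubring.mem_nonunits_iff, map_one]
  exact lt_irrefl _

/-- Functions of `S_b` are regular at the places of the disc. -/
theorem mem_place_of_mem_discRing {f : F} (hf : f ∈ discRing A O x b) {P : Place K F}
    (hP : InDisc A x b P) : f ∈ P.toValuationSubring :=
  (ord_nonneg_iff_mem P f).1 (hf.2 P hP)

/-- A constant vanishing at a place is zero. -/
theorem const_eq_zero_of_mem_nonunits (P : Place K F) {u : K}
    (hu : algebraMap K F u ∈ P.toValuationSubring.nonunits) : u = 0 := by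
  refine Fermat.Agent.S24.H94.center_unique P.toValuationSubring P.algebraMap_mem'
    (x := algebraMap K F u) ?_ ?_
  · rw [sub_self]; exact P.toValuationSubring.nonunits.zero_mem
  · rw [map_zero, sub_zero]; exact hu

section Const

variable (hmem : ∀ a : K, algebraMap K F a ∈ O ↔ a ∈ A)
include hmem

/-- Integral constants lie in `S_b`. -/
theorem const_mem_discRing {c : K} (hc : c ∈ A) : algebraMap K F c ∈ discRing A O x b :=
  ⟨(hmem c).2 hc, fun P _ => (ord_nonneg_iff_mem P _).2 (P.algebraMap_mem' c)⟩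

theorem const_mem_nonunits {c : K} (hc : c ∈ A.nonunits) : algebraMap K F c ∈ O.nonunits := by
  rw [ValuationSubring.mem_nonunits_iff_or] at hc ⊢
  rcases hc with rfl | hc
  · left; exact map_zero _
  · right
    rw [← map_inv₀, hmem]
    exact hc

end Const

/-- The ideal of `red(S_b)` of the reductions of the functions of `S_b` vanishing at `P`. -/
def nP (A : ValuationSubring K) (O : ValuationSubring F) (x : F) (b : K) (P : Place K F)
    (hP : InDisc A x b P) : Ideal ↥(Sbar A O x b) where
  carrier := {z | ∃ s : ↥O, (s : F) ∈ discRing A O x b ∧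
    (s : F) ∈ P.toValuationSubring.nonunits ∧ residue ↥O s = (z : ResidueField ↥O)}
  add_mem' := by
    rintro z w ⟨s, hs, hsP, hsz⟩ ⟨t, ht, htP, htw⟩
    refine ⟨s + t, (discSubring A O x b).add_mem hs ht,
      P.toValuationSubring.nonunits.add_mem hsP htP, ?_⟩
    rw [map_add, hsz, htw]
    rfl
  zero_mem' := ⟨0, (discSubring A O x b).zero_mem, P.toValuationSubring.nonunits.zero_mem,
    map_zero _⟩
  smul_mem' := by
    rintro c z ⟨s, hs, hsP, hsz⟩
    obtain ⟨t, ht, htc⟩ := (mem_Sbar A O x b).1 c.2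
    refine ⟨s * t, (discSubring A O x b).mul_mem hs ht,
      mul_mem_nonunits_of_mem _ hsP (mem_place_of_mem_discRing ht hP), ?_⟩
    rw [map_mul, hsz, htc, mul_comm]
    rfl

theorem mem_nP {P : Place K F} {hP : InDisc A x b P} {z : ↥(Sbar A O x b)} :
    z ∈ nP A O x b P hP ↔ ∃ s : ↥O, (s : F) ∈ discRing A O x b ∧
      (s : F) ∈ P.toValuationSubring.nonunits ∧ residue ↥O s = (z : ResidueField ↥O) :=
  Iff.rfl

section Main

variable [IsAlgClosed K] [Algebra.IsAlgebraic K⟮x⟯ F]
  (hmem : ∀ a : K, algebraMap K F a ∈ O ↔ a ∈ A)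
  (EV : ∀ s ∈ discRing A O x b, ∀ P : Place K F, InDisc A x b P → ∀ c : K,
    0 < P.ord (s - algebraMap K F c) → c ∈ A)
  (MO : ∀ e ∈ discRing A O x b, e ∈ O.nonunits →
    ∃ a ∈ A.nonunits, ∃ s ∈ discRing A O x b, e = algebraMap K F a * s)
  (P : Place K F) (hP : InDisc A x b P)

include hmem EV hP in
/-- The value at `P` of a function of `S_b` is an integral constant. -/
theorem exists_value {f : F} (hf : f ∈ discRing A O x b) :
    ∃ c ∈ A, f - algebraMap K F c ∈ P.toValuationSubring.nonunits := by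
  obtain ⟨c, hc⟩ := Fermat.Agent.S24.H94.exists_sub_mem_nonunits P.toValuationSubring
    P.algebraMap_mem' P.ne_top' x (Fermat.Agent.S24.H94.isAlgebraic_adjoin x)
    (mem_place_of_mem_discRing hf hP)
  refine ⟨c, ?_, hc⟩
  by_cases h0 : f - algebraMap K F c = 0
  · rw [sub_eq_zero] at h0
    rw [← hmem, ← h0]
    exact hf.1
  · exact EV f hf P hP c ((Fermat.Agent.S24.H94.ord_pos_iff_mem_nonunits P h0).2 hc)

omit [IsAlgClosed K] [Algebra.IsAlgebraic K⟮x⟯ F] in
/-- An integral constant, as an element of `O`. -/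
def constO (c : K) (hc : c ∈ A) : ↥O := ⟨algebraMap K F c, (hmem c).2 hc⟩

omit [IsAlgClosed K] [Algebra.IsAlgebraic K⟮x⟯ F] in
/-- An integral constant, as an element of `O ∩ K(x)`. -/
def constOL (c : K) (hc : c ∈ A) : ↥(OL (K := K) O x) :=
  ⟨algebraMap K K⟮x⟯ c, (hmem c).2 hc⟩

omit [IsAlgClosed K] [Algebra.IsAlgebraic K⟮x⟯ F] in
theorem inclOL_constOL (c : K) (hc : c ∈ A) :
    inclOL O x (constOL (x := x) hmem c hc) = constO hmem c hc := rfl

include hmem EV MO in
/-- `n_P` is a proper ideal. -/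
theorem one_notMem_nP : (1 : ↥(Sbar A O x b)) ∉ nP A O x b P hP := by
  rintro ⟨s, hs, hsP, hs1⟩
  -- `s - 1 ∈ m_O ∩ S_b`
  have h1 : residue ↥O (s - 1) = 0 := by
    rw [map_sub, map_one, hs1]
    exact sub_self _
  rw [residue_eq_zero_iff, mem_maximalIdeal_iff] at h1
  have h2 : ((s - 1 : ↥O) : F) ∈ discRing A O x b :=
    (discSubring A O x b).sub_mem hs (discSubring A O x b).one_mem
  obtain ⟨a, ha, t, ht, hat⟩ := MO _ h2 h1
  obtain ⟨c, hc, hcP⟩ := exists_value hmem EV P hP ht
  -- `1 + a c` is a constant vanishing at `P`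
  have h3 : algebraMap K F (1 + a * c) ∈ P.toValuationSubring.nonunits := by
    have h4 : algebraMap K F (1 + a * c)
        = (s : F) - (t - algebraMap K F c) * algebraMap K F a := by
      have h5 : (s : F) - 1 = algebraMap K F a * t := hat
      rw [map_add, map_one, map_mul]
      linear_combination -h5
    rw [h4]
    exact P.toValuationSubring.nonunits.sub_mem hsP
      (mul_mem_nonunits_of_mem _ hcP (P.algebraMap_mem' a))
  have h6 : 1 + a * c = 0 := const_eq_zero_of_mem_nonunits P h3
  have h7 : a * c ∈ A.nonunits := mul_mem_nonunits_of_mem A ha hc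
  have h8 : (1 : K) ∈ A.nonunits := by
    have : (1 : K) = -(a * c) := by linear_combination h6
    rw [this]
    exact A.nonunits.neg_mem h7
  exact one_notMem_nonunits A h8

include hmem EV in
/-- Every element of `red(S_b)` is congruent modulo `n_P` to the reduction of an integral
constant. -/
theorem exists_const_sub_mem_nP (z : ↥(Sbar A O x b)) :
    ∃ (c : K) (hc : c ∈ A), ∃ w : ↥(Sbar A O x b),
      (w : ResidueField ↥O) = residue ↥O (constO hmem c hc) ∧ z - w ∈ nP A O x b P hP := by
  obtain ⟨f, hf, hfz⟩ := (mem_Sbar A O x b).1 z.2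
  obtain ⟨c, hc, hcP⟩ := exists_value hmem EV P hP hf
  have hcd : ((constO hmem c hc : ↥O) : F) ∈ discRing A O x b := const_mem_discRing hmem hc
  refine ⟨c, hc, ⟨residue ↥O (constO hmem c hc), residue_mem_Sbar A O x b hcd⟩, rfl,
    f - constO hmem c hc, (discSubring A O x b).sub_mem hf hcd, hcP, ?_⟩
  rw [map_sub, hfz]
  rfl

include hmem EV in
/-- `n_P` has residue degree one over `red(R_b)`. -/
theorem nP_deg (z : ↥(Sbar A O x b)) :
    ∃ a : ↥(Rbar A O x b), z - algebraMap ↥(Rbar A O x b) ↥(Sbar A O x b) a ∈ nP A O x b P hP := by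
  obtain ⟨c, hc, w, hw, hzw⟩ := exists_const_sub_mem_nP hmem EV P hP z
  have hcd : (((constOL (x := x) hmem c hc : ↥(OL (K := K) O x)) : K⟮x⟯) : F) ∈ discRing A O x b :=
    const_mem_discRing hmem hc
  refine ⟨⟨residue _ (constOL (x := x) hmem c hc), residue_mem_Rbar A O x b hcd⟩, ?_⟩
  have h1 : algebraMap ↥(Rbar A O x b) ↥(Sbar A O x b)
      ⟨residue _ (constOL (x := x) hmem c hc), residue_mem_Rbar A O x b hcd⟩ = w := by
    apply Subtype.ext
    rw [hw]
    exact algebraMap_Rbar_residue A O x b (constOL (x := x) hmem c hc) hcd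
  rw [h1]
  exact hzw

include hmem EV MO in
/-- `n_P` is a maximal ideal of `red(S_b)`. -/
theorem nP_isMaximal : (nP A O x b P hP).IsMaximal := by
  rw [Ideal.isMaximal_iff]
  refine ⟨one_notMem_nP hmem EV MO P hP, fun J z hJ hz hzJ => ?_⟩
  obtain ⟨f, hf, hfz⟩ := (mem_Sbar A O x b).1 z.2
  obtain ⟨c, hc, hcP⟩ := exists_value hmem EV P hP hf
  have hcd : ((constO hmem c hc : ↥O) : F) ∈ discRing A O x b := const_mem_discRing hmem hc
  -- the value `c` is a unit of `A`
  have hcu : c ∉ A.nonunits := by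
    intro hcn
    apply hz
    refine ⟨f - constO hmem c hc, (discSubring A O x b).sub_mem hf hcd, hcP, ?_⟩
    have h0 : residue ↥O (constO hmem c hc) = 0 := by
      rw [residue_eq_zero_iff, mem_maximalIdeal_iff]
      exact const_mem_nonunits hmem hcn
    rw [map_sub, hfz, h0, sub_zero]
  rw [ValuationSubring.mem_nonunits_iff_or, not_or, not_not] at hcu
  obtain ⟨hc0, hci⟩ := hcu
  have hcid : ((constO hmem c⁻¹ hci : ↥O) : F) ∈ discRing A O x b := const_mem_discRing hmem hci
  -- `w z - 1 ∈ n_P` for `w = red(c⁻¹)`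
  set w : ↥(Sbar A O x b) := ⟨residue ↥O (constO hmem c⁻¹ hci), residue_mem_Sbar A O x b hcid⟩
    with hw
  have h1 : w * z - 1 ∈ nP A O x b P hP := by
    refine ⟨constO hmem c⁻¹ hci * f - 1, (discSubring A O x b).sub_mem
      ((discSubring A O x b).mul_mem hcid hf) (discSubring A O x b).one_mem, ?_, ?_⟩
    · have h2 : ((constO hmem c⁻¹ hci * f - 1 : ↥O) : F)
          = ((f : F) - algebraMap K F c) * algebraMap K F c⁻¹ := by
        change algebraMap K F c⁻¹ * (f : F) - 1 = _
        have h3 : algebraMap K F c * algebraMap K F c⁻¹ = 1 := by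
          rw [← map_mul, mul_inv_cancel₀ hc0, map_one]
        linear_combination h3
      rw [h2]
      exact mul_mem_nonunits_of_mem _ hcP (P.algebraMap_mem' _)
    · rw [map_sub, map_mul, map_one, hfz]
      rfl
  have h4 : w * z ∈ J := J.mul_mem_left w hzJ
  have h5 : (1 : ↥(Sbar A O x b)) = w * z - (w * z - 1) := by ring
  rw [h5]
  exact J.sub_mem h4 (hJ h1)

omit [IsAlgClosed K] [Algebra.IsAlgebraic K⟮x⟯ F] in
/-- A nonzero element of `n_P` lifts to an element of `S_b` which is a unit of `O` and vanishes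
at `P`. -/
theorem exists_lift {z : ↥(Sbar A O x b)} (hz : z ∈ nP A O x b P hP) (hz0 : z ≠ 0) :
    ∃ s : ↥O, (s : F) ∈ discRing A O x b ∧ (s : F)⁻¹ ∈ O ∧ 0 < P.ord (s : F) ∧
      residue ↥O s = (z : ResidueField ↥O) := by
  obtain ⟨s, hs, hsP, hsz⟩ := hz
  have hres : residue ↥O s ≠ 0 := by
    rw [hsz]
    intro h
    exact hz0 (Subtype.ext h)
  have hsn : (s : F) ∉ O.nonunits := by
    intro h
    exact hres ((residue_eq_zero_iff _).2 ((mem_maximalIdeal_iff O s).2 h))
  rw [ValuationSubring.mem_nonunits_iff_or, not_or, not_not] at hsn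
  exact ⟨s, hs, hsn.2, (Fermat.Agent.S24.H94.ord_pos_iff_mem_nonunits P hsn.1).2 hsP, hsz⟩

end Main

end Fermat.Agent.S18.H69
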