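/-
S18 / Program J / C1 node `key_gen` (helper69), part 2: the assembly.

`key_gen_of_closed` is the node `key_gen` of the C1 sub-skeleton (helper49, `C1Skel.lean`) VERBATIM
plus the single extra hypothesis

  `hcl : ∀ z : ResidueField ↥O, IsIntegral ↥(H5.Rbar A O x b) z → z ∈ H5.Sbar A O x b`

(the residue-level Key Lemma: `red(S_b)` is integrally closed in the residue field of `O`).

Proof: `red(S_b) = ⊕ red(R_b) red(θ_i)` for the minimal tuple `θ` of `KeyHyp` (`sbar_basis_mem`,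
`sbar_coord`); `red(R_b)` is a discrete valuation ring with fraction field the residue field of
`O ∩ K(x)` (helper4 / helper66); hence by helper45's `exists_generator_norm` the maximal ideal
`n_P` of residue degree one (part 1) is generated by `τbar` with `Norm τbar = ϖ * unit`; lift
`τbar` to `τ ∈ S_b` vanishing at `P` (part 1) and apply helper66's `norm_factor`.
-/
import Fermat.Agent.S18.H69.KeyGenIdeal
import Fermat.Agent.S18.H66.KeyGenNorm
import Fermat.Agent.S18.H45.DvrClosed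
import Fermat.Agent.S18.H49.C1Defs
import Fermat.Agent.S18.H90.GramUnit

set_option autoImplicit false
set_option linter.style.haveILetI false

open AlgebraicCurve IntermediateField IsLocalRing

noncomputable section

namespace Fermat.Agent.S18.H69

open Fermat.Agent.S18.H74 Fermat.Agent.S18.H80 Fermat.Agent.S18.H5 Fermat.Agent.S18.H49

variable {K : Type*} [Field K] {A : ValuationSubring K} {F : Type*} [Field F] [Algebra K F]
  {O : ValuationSubring F} {x : F} {b : K}

/-- The reductions of a minimal tuple lie in `red(S_b)`. -/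
theorem sbar_basis_mem {μ : ℕ} {θ : Fin μ → F} (D : ResData A O x θ)
    (hθ : ∀ i, θ i ∈ discRing A O x b) (i : Fin μ) : D.basisRes i ∈ Sbar A O x b := by
  rw [D.basisRes_apply]
  exact residue_mem_Sbar A O x b (f := ⟨θ i, D.theta_mem i⟩) (hθ i)

/-- `red(S_b) = ⊕ red(R_b) red(θ_i)` for a minimal tuple `θ`. -/
theorem sbar_coord {μ : ℕ} {θ : Fin μ → F} (D : ResData A O x θ)
    (hcoord : ∀ r : Fin μ → K⟮x⟯, (∑ i, (r i : F) * θ i) ∈ discRing A O x b →
      ∀ i, (r i : F) ∈ discRing A O x b)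
    (z : ResidueField ↥O) (hz : z ∈ Sbar A O x b) :
    ∃ c : Fin μ → ↥(Rbar A O x b), z = ∑ i, c i • D.basisRes i := by
  obtain ⟨f, hf, rfl⟩ := (mem_Sbar A O x b).1 hz
  have h1 : ∀ i, ((D.basisF.repr (f : F) i : K⟮x⟯) : F) ∈ discRing A O x b :=
    hcoord (fun i => D.basisF.repr (f : F) i) (by rw [D.sum_repr]; exact hf)
  set r : Fin μ → ↥(OL (K := K) O x) := fun i => ⟨D.basisF.repr (f : F) i, (h1 i).1⟩ with hr
  refine ⟨fun i => ⟨residue _ (r i), residue_mem_Rbar A O x b (h1 i)⟩, ?_⟩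
  have h2 := D.sum_residue_smul_thetaBar r
  have h3 : f = ⟨∑ i, ((r i : K⟮x⟯) : F) * θ i, D.sum_mem r⟩ := by
    apply Subtype.ext
    exact (D.sum_repr _).symm
  rw [← h3] at h2
  rw [← h2]
  refine Finset.sum_congr rfl fun i _ => ?_
  rw [D.basisRes_apply]
  rfl

/-- **`key_gen`** modulo the residue-level Key Lemma `hcl`. -/
theorem key_gen_of_closed [IsAlgClosed K] [CharZero K] (hA : A ≠ ⊤) (hS : Setup K A F O x)
    (b : K) (hb : b ∈ A) (hkey : KeyHyp A O x b)
    (hcl : ∀ z : ResidueField ↥O, IsIntegral ↥(Rbar A O x b) z → z ∈ Sbar A O x b)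
    (EV : ∀ s ∈ discRing A O x b, ∀ P : Place K F, InDisc A x b P → ∀ c : K,
      0 < P.ord (s - algebraMap K F c) → c ∈ A)
    (MO : ∀ e ∈ discRing A O x b, e ∈ O.nonunits →
      ∃ a ∈ A.nonunits, ∃ s ∈ discRing A O x b, e = algebraMap K F a * s)
    (P : Place K F) (hP : InDisc A x b P) :
    ∃ τ ∈ discRing A O x b, τ⁻¹ ∈ O ∧ 0 < P.ord τ ∧ ∃ (c0 : K) (ε : K⟮x⟯),
      c0 - b ∈ A.nonunits ∧
      ((Algebra.norm K⟮x⟯ τ : K⟮x⟯) : F) = (x - algebraMap K F c0) * (ε : F) ∧
      (ε : F) ∈ discRing A O x b ∧ (ε : F)⁻¹ ∈ discRing A O x b := by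
  haveI := hS.finite
  obtain ⟨θ, b0, n, ε0, r, v, hθ, -⟩ := hkey
  have D : ResData A O x θ := resData_of_setup hA hS θ hθ.on
    (Fermat.Agent.S18.H90.gramDet_unit hA hS θ hθ.on).2
  haveI := Fermat.Agent.S18.H66.isDiscreteValuationRing_Rbar hA hS b hb
  haveI := Fermat.Agent.S18.H66.isFractionRing_Rbar hA hS b hb
  haveI : FiniteDimensional (ResidueField ↥(OL (K := K) O x)) (ResidueField ↥O) := D.finite_res
  have h := Fermat.Agent.S18.H66.discResidue_of_setup hA hS b hb
  obtain ⟨xb, ϖ, hxb, hϖ⟩ := h.exists_unif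
  have hirr := h.irreducible hxb hϖ
  obtain ⟨τbar, hτ, ε, hε, hN⟩ := Fermat.Agent.S18.H45.exists_generator_norm (Sbar A O x b)
    D.basisRes (sbar_basis_mem D hθ.mem) (sbar_coord D hθ.coord) hcl hirr (nP A O x b P hP)
    (nP_isMaximal hS.mem_iff EV MO P hP) (nP_deg hS.mem_iff EV P hP)
  have hτ0 : τbar ≠ 0 := by
    rintro rfl
    have h0 : algebraMap ↥(Rbar A O x b) (ResidueField ↥(OL (K := K) O x)) (ϖ * ε) = 0 := by
      rw [← hN]
      exact Algebra.norm_zero
    have h1 : ϖ * ε = 0 := Subtype.ext h0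
    rcases mul_eq_zero.1 h1 with h2 | h2
    · exact hirr.ne_zero h2
    · exact hε.ne_zero h2
  have hmem : τbar ∈ nP A O x b P hP := by
    rw [hτ]
    exact Ideal.mem_span_singleton_self τbar
  obtain ⟨s, hs, hsO, hsP, hsz⟩ := exists_lift P hP hmem hτ0
  refine ⟨(s : F), hs, hsO, hsP, ?_⟩
  refine Fermat.Agent.S18.H66.norm_factor hA hS b hb hs hsO ϖ ε hirr hε ?_
  have h4 : (⟨(s : F), hs.1⟩ : ↥O) = s := rfl
  rw [h4, hsz]
  exact hN

end Fermat.Agent.S18.H69
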