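/-
S18 / Program J / C1 node `key_gen` (helper69), final form.

* `key_gen` : the node `key_gen` of the C1 sub-skeleton (helper49, `C1Skel.lean`) VERBATIM;
* `keyGen`  : the leaf `H49.KeyGen A O x` of the C1 assembly (`H49/C1Asm.lean`).

`key_gen_of_closed` (part 2) with the residue-level Key Lemma `H5.key_closed` (helper5).
-/
import Fermat.Agent.S18.H69.KeyGen
import Fermat.Agent.S18.H5.Key
import Fermat.Agent.S18.H49.C1Asm

set_option autoImplicit false

open AlgebraicCurve IntermediateField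

noncomputable section

namespace Fermat.Agent.S18.H69

open Fermat.Agent.S18.H74 Fermat.Agent.S18.H49

variable {K : Type*} [Field K] {A : ValuationSubring K} {F : Type*} [Field F] [Algebra K F]
  {O : ValuationSubring F} {x : F}

/-- **Key Lemma, output (GEN)**: VERBATIM node `key_gen` of the C1 sub-skeleton. -/
theorem key_gen [IsAlgClosed K] [CharZero K] (hA : A ≠ ⊤) (hS : Setup K A F O x)
    (b : K) (hb : b ∈ A) (hkey : KeyHyp A O x b)
    (EV : ∀ s ∈ discRing A O x b, ∀ P : Place K F, InDisc A x b P → ∀ c : K,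
      0 < P.ord (s - algebraMap K F c) → c ∈ A)
    (MO : ∀ e ∈ discRing A O x b, e ∈ O.nonunits →
      ∃ a ∈ A.nonunits, ∃ s ∈ discRing A O x b, e = algebraMap K F a * s)
    (P : Place K F) (hP : InDisc A x b P) :
    ∃ τ ∈ discRing A O x b, τ⁻¹ ∈ O ∧ 0 < P.ord τ ∧ ∃ (c0 : K) (ε : K⟮x⟯),
      c0 - b ∈ A.nonunits ∧
      ((Algebra.norm K⟮x⟯ τ : K⟮x⟯) : F) = (x - algebraMap K F c0) * (ε : F) ∧
      (ε : F) ∈ discRing A O x b ∧ (ε : F)⁻¹ ∈ discRing A O x b :=
  key_gen_of_closed hA hS b hb hkey (Fermat.Agent.S18.H5.key_closed hA hS hb hkey) EV MO P hP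

/-- The leaf `KeyGen` of the C1 assembly. -/
theorem keyGen [IsAlgClosed K] [CharZero K] (hA : A ≠ ⊤) (hS : Setup K A F O x) :
    KeyGen A O x :=
  fun b hb hkey P hP => key_gen hA hS b hb hkey (fun s hs P hP c hc => ev_disc hA hS b hb s hs P hP c hc)
    (fun e he heO => mo_disc hS b e he heO) P hP

end Fermat.Agent.S18.H69
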